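import Fermat.Agent.S55.NIT.Defs

/-!
# S55 / NIT : top-level assembly (sorry-free, from the node statements as hypotheses)

`Nodes K L p` bundles the five node statements; `hasse_norm_of_nodes` and
`global_index_of_nodes` are the two consumer statements.
-/

set_option autoImplicit false
set_option linter.unusedSectionVars false

namespace Fermat.Agent.S55.NIT

open IsDedekindDomain NumberField WithZero

/-- Pure index calculus: `C ≤ A ⊓ B`, `[A : C] = p^(m-1)`, `[G : A ⊔ B] ≤ p`, `p^m ≤ [G : B]`. -/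
theorem index_calculus {G : Type*} [CommGroup G] (A B C : Subgroup G) (p m : ℕ) (hp : 0 < p)
    (hm : 1 ≤ m) (hCA : C ≤ A) (hCB : C ≤ B) (h1 : C.relIndex A = p ^ (m - 1))
    (h2 : (A ⊔ B).index ≠ 0) (h2' : (A ⊔ B).index ≤ p)
    (h3 : B.index ≠ 0) (h3' : p ^ m ≤ B.index) :
    A ⊓ B ≤ C ∧ (A ⊔ B).index = p := by
  -- [G:B] = [A⊔B : B] * [G : A⊔B],  [A⊔B:B] = [A : A⊓B]
  have e1 : B.relIndex (A ⊔ B) * (A ⊔ B).index = B.index :=
    Subgroup.relIndex_mul_index le_sup_right
  have e2 : B.relIndex (A ⊔ B) = B.relIndex A := Subgroup.relIndex_sup_right A B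
  have e3 : (A ⊓ B).relIndex A = B.relIndex A := Subgroup.inf_relIndex_left A B
  have e4 : C.relIndex (A ⊓ B) * (A ⊓ B).relIndex A = C.relIndex A :=
    Subgroup.relIndex_mul_relIndex C (A ⊓ B) A (le_inf hCA hCB) inf_le_left
  set a := B.relIndex A with ha
  set i := (A ⊔ B).index with hi
  set c := C.relIndex (A ⊓ B) with hc
  rw [e2] at e1
  rw [e3, h1] at e4
  -- c * a = p^(m-1), a * i = [G:B] ≥ p^m, i ≤ p
  have hpm : p ^ m = p ^ (m - 1) * p := by
    rw [← pow_succ]; congr 1; omega
  have hpos : 0 < p ^ (m - 1) := pow_pos hp _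
  have ha0 : 0 < a := by
    rcases Nat.eq_zero_or_pos a with h | h
    · rw [h, mul_zero] at e4; omega
    · exact h
  have hc0 : 0 < c := by
    rcases Nat.eq_zero_or_pos c with h | h
    · rw [h, zero_mul] at e4; omega
    · exact h
  have h5 : c * a * p ≤ a * i := by
    rw [e4, ← hpm, e1]; exact h3'
  have h6 : a * i ≤ a * p := Nat.mul_le_mul_left a h2'
  have h7 : c * (a * p) ≤ 1 * (a * p) := by
    calc c * (a * p) = c * a * p := by ring
      _ ≤ a * i := h5
      _ ≤ a * p := h6
      _ = 1 * (a * p) := by ring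
  have hap : 0 < a * p := Nat.mul_pos ha0 hp
  have hc1 : c = 1 := le_antisymm (Nat.le_of_mul_le_mul_right h7 hap) hc0
  refine ⟨Subgroup.relIndex_eq_one.1 hc1, ?_⟩
  rw [hc1, one_mul] at h5
  exact le_antisymm h2' (Nat.le_of_mul_le_mul_left h5 ha0)

variable (K : Type*) [Field K] [NumberField K] (L : Type*) [Field L] [NumberField L] [Algebra K L]

/-- The standing hypotheses of block NIT: `L/K` is a (Galois) Kummer extension of odd prime
degree `p`. -/
structure Kum (p : ℕ) : Prop where
  prime : p.Prime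
  odd : p ≠ 2
  galois : IsGalois K L
  deg : Module.finrank K L = p
  zeta : ∃ ζ : K, IsPrimitiveRoot ζ p

/-- The node statements of block NIT for one extension `L/K`. -/
structure Nodes (p : ℕ) : Prop where
  /-- N1 -/
  exists_big : ∀ S₀ : Finset (Pl K), ∃ S : Finset (Pl K), S₀ ⊆ S ∧ Big K L p S
  /-- N0 -/
  nrmS_le_sunit : ∀ S : Finset (Pl K), nrmS K L (S : Set (Pl K)) ≤ sunit K (S : Set (Pl K))
  /-- N2 (first inequality: unit norm index) -/
  unit_norm_index : ∀ S : Finset (Pl K), Big K L p S → 1 ≤ nsCount K L S ∧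
    (nrmS K L (S : Set (Pl K))).relIndex (sunit K (S : Set (Pl K))) = p ^ (nsCount K L S - 1)
  /-- N3 (second inequality) -/
  second_inequality : ∀ S : Finset (Pl K), Big K L p S →
    (sunit K (S : Set (Pl K)) ⊔ locNormS K L S).index ≠ 0 ∧
      (sunit K (S : Set (Pl K)) ⊔ locNormS K L S).index ≤ p
  /-- N4 (local norm indices + weak approximation) -/
  locNormS_index : ∀ S : Finset (Pl K),
    (locNormS K L S).index ≠ 0 ∧ p ^ nsCount K L S ≤ (locNormS K L S).index

variable {K L}

theorem nrmS_le_locNormS (S : Finset (Pl K)) : nrmS K L (S : Set (Pl K)) ≤ locNormS K L S :=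
  fun _ hx => mem_locNormS.2 fun v _ => nrm_le_locNorm v (nrmS_le_nrm _ hx)

/-- For big `S`: an `S`-unit which is a local norm at all places of `S` is the norm of an
`S`-unit, and the "idele class norm index" is exactly `p`. -/
theorem sunit_hasse_of_nodes {p : ℕ} (hp : p.Prime) (N : Nodes K L p) {S : Finset (Pl K)}
    (hS : Big K L p S) :
    sunit K (S : Set (Pl K)) ⊓ locNormS K L S ≤ nrmS K L (S : Set (Pl K)) ∧
      (sunit K (S : Set (Pl K)) ⊔ locNormS K L S).index = p :=
  index_calculus _ _ _ p (nsCount K L S) hp.pos (N.unit_norm_index S hS).1 (N.nrmS_le_sunit S)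
    (nrmS_le_locNormS S) (N.unit_norm_index S hS).2 (N.second_inequality S hS).1
    (N.second_inequality S hS).2 (N.locNormS_index S).1 (N.locNormS_index S).2

theorem finite_support (x : Kˣ) : {v : Pl K | v.valuation K (x : K) ≠ 1}.Finite := by
  have h := HeightOneSpectrum.Support.finite (𝓞 K) (x : K)
  have h' := HeightOneSpectrum.Support.finite (𝓞 K) ((x⁻¹ : Kˣ) : K)
  refine (h.union h').subset fun v hv => ?_
  simp only [Set.mem_ofPred_eq] at hv
  rcases lt_or_gt_of_ne hv with h1 | h1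
  · right
    show 1 < v.valuation K ((x⁻¹ : Kˣ) : K)
    rw [Units.val_inv_eq_inv_val, map_inv₀]
    exact (one_lt_inv₀ (by simp [zero_lt_iff])).2 h1
  · left; exact h1

/-- **Hasse norm theorem** (from the nodes). -/
theorem hasse_norm_of_nodes {p : ℕ} (hp : p.Prime) (N : Nodes K L p) (x : Kˣ)
    (hx : ∀ v : Pl K, x ∈ locNorm K L v) : x ∈ nrm K L := by
  classical
  obtain ⟨S, hS₀, hS⟩ := N.exists_big (finite_support x).toFinset
  refine nrmS_le_nrm _ ((sunit_hasse_of_nodes hp N hS).1 ⟨?_, mem_locNormS.2 fun v _ => hx v⟩)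
  refine mem_sunit.2 fun v hv => ?_
  by_contra hne
  exact hv (Finset.mem_coe.2 (hS₀ ((finite_support x).mem_toFinset.2 hne)))

end Fermat.Agent.S55.NIT
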