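import Mathlib

/-!
# S55 / block NIT : definitions (idele-free, completion-free)

`K` a number field, `Pl K` its finite places.  Everything local is expressed by approximation:
`pu v n`      : principal units of level `> n` at `v`   (`v (x - 1) < exp (-n)`),
`locNorm K L v` : elements of `Kˣ` which are, for every `n`, a global norm from `L` times an
                element of `pu v n`  (= `Kˣ ∩ N (L ⊗ K_v)ˣ`),
`locPow K p v`  : the same with `p`-th powers (= `Kˣ ∩ K_vˣ ^ p`).
-/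

set_option autoImplicit false
set_option linter.unusedSectionVars false

noncomputable section

namespace Fermat.Agent.S55.NIT

open IsDedekindDomain NumberField WithZero

/-- The finite places of a number field. -/
abbrev Pl (K : Type*) [Field K] [NumberField K] : Type _ := HeightOneSpectrum (𝓞 K)

section Base

variable {K : Type*} [Field K] [NumberField K]

theorem val_eq_one_of_sub_one_lt (v : Pl K) {x : K} (h : v.valuation K (x - 1) < 1) :
    v.valuation K x = 1 := by
  have h1 : v.valuation K (x - 1) < v.valuation K (1 : K) := by rwa [map_one]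
  have := Valuation.map_add_eq_of_lt_right (v.valuation K) h1
  rwa [sub_add_cancel, map_one] at this

/-- Principal units of level `> n` at the finite place `v`. -/
def pu (v : Pl K) (n : ℕ) : Subgroup Kˣ where
  carrier := {x | v.valuation K ((x : K) - 1) < exp (-(n : ℤ))}
  one_mem' := by simp
  mul_mem' := by
    intro x y hx hy
    simp only [Set.mem_ofPred_eq] at hx hy ⊢
    have hle : exp (-(n : ℤ)) ≤ (1 : ℤᵐ⁰) := by
      rw [← exp_zero, exp_le_exp]; omega
    have hx1 : v.valuation K (x : K) = 1 := val_eq_one_of_sub_one_lt v (lt_of_lt_of_le hx hle)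
    have e : ((x * y : Kˣ) : K) - 1 = (x : K) * ((y : K) - 1) + ((x : K) - 1) := by
      push_cast; ring
    rw [e]
    refine lt_of_le_of_lt (Valuation.map_add _ _ _) (max_lt ?_ hx)
    rwa [map_mul, hx1, one_mul]
  inv_mem' := by
    intro x hx
    simp only [Set.mem_ofPred_eq] at hx ⊢
    have hle : exp (-(n : ℤ)) ≤ (1 : ℤᵐ⁰) := by
      rw [← exp_zero, exp_le_exp]; omega
    have hx1 : v.valuation K (x : K) = 1 := val_eq_one_of_sub_one_lt v (lt_of_lt_of_le hx hle)
    have e : ((x⁻¹ : Kˣ) : K) - 1 = -((x : K)⁻¹ * ((x : K) - 1)) := by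
      have : (x : K) ≠ 0 := x.ne_zero
      push_cast; field_simp; ring
    rw [e, Valuation.map_neg, map_mul, map_inv₀, hx1, inv_one, one_mul]
    exact hx

theorem mem_pu {v : Pl K} {n : ℕ} {x : Kˣ} :
    x ∈ pu v n ↔ v.valuation K ((x : K) - 1) < exp (-(n : ℤ)) := Iff.rfl

theorem pu_antitone (v : Pl K) {m n : ℕ} (h : m ≤ n) : pu v n ≤ pu v m := by
  intro x hx
  rw [mem_pu] at hx ⊢
  refine lt_of_lt_of_le hx ?_
  rw [exp_le_exp]; omega

theorem val_eq_one_of_mem_pu {v : Pl K} {n : ℕ} {x : Kˣ} (hx : x ∈ pu v n) :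
    v.valuation K (x : K) = 1 := by
  refine val_eq_one_of_sub_one_lt v (lt_of_lt_of_le (mem_pu.1 hx) ?_)
  rw [← exp_zero, exp_le_exp]; omega

variable (K)

/-- `p`-th powers in `Kˣ`. -/
def pw (p : ℕ) : Subgroup Kˣ := (powMonoidHom p : Kˣ →* Kˣ).range

/-- Elements of `Kˣ` that are `p`-th powers in the completion at `v` (approximation form). -/
def locPow (p : ℕ) (v : Pl K) : Subgroup Kˣ := ⨅ n : ℕ, pw K p ⊔ pu v n

/-- `S`-units (units outside `S`). -/
abbrev sunit (S : Set (Pl K)) : Subgroup Kˣ := S.unit K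

variable {K}

theorem mem_pw {p : ℕ} {x : Kˣ} : x ∈ pw K p ↔ ∃ y : Kˣ, y ^ p = x := Iff.rfl

theorem mem_locPow {p : ℕ} {v : Pl K} {x : Kˣ} :
    x ∈ locPow K p v ↔ ∀ n : ℕ, ∃ y : Kˣ, x / y ^ p ∈ pu v n := by
  simp only [locPow, Subgroup.mem_iInf, Subgroup.mem_sup]
  refine forall_congr' fun n => ⟨?_, ?_⟩
  · rintro ⟨a, ⟨y, rfl⟩, b, hb, rfl⟩
    exact ⟨y, by simpa using hb⟩
  · rintro ⟨y, hy⟩
    exact ⟨y ^ p, ⟨y, rfl⟩, x / y ^ p, hy, by simp⟩

theorem mem_sunit {S : Set (Pl K)} {x : Kˣ} :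
    x ∈ sunit K S ↔ ∀ v : Pl K, v ∉ S → v.valuation K (x : K) = 1 := Iff.rfl

end Base

section Ext

variable (K : Type*) [Field K] [NumberField K] (L : Type*) [Field L] [NumberField L] [Algebra K L]

/-- Global norms from `L`. -/
def nrm : Subgroup Kˣ := (Units.map (Algebra.norm K : L →* K)).range

/-- Elements of `Kˣ` that are local norms from `L` at `v` (approximation form). -/
def locNorm (v : Pl K) : Subgroup Kˣ := ⨅ n : ℕ, nrm K L ⊔ pu v n

variable {K L}

/-- The place `w` of `L` lies above the place `v` of `K`. -/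
def Above (v : Pl K) (w : Pl L) : Prop := w.asIdeal.under (𝓞 K) = v.asIdeal

variable (K L)

/-- `v` has at least two places above it (for `L/K` Galois of prime degree: splits completely). -/
def Split (v : Pl K) : Prop := ∃ w w' : Pl L, w ≠ w' ∧ Above v w ∧ Above v w'

/-- `v` is unramified in `L` (valuation form: every `w ∣ v` restricts to `v` on `K`). -/
def Unram (v : Pl K) : Prop :=
  ∀ w : Pl L, Above v w → ∀ x : K, w.valuation L (algebraMap K L x) = v.valuation K x

/-- The places of `L` above a set of places of `K`. -/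
def up (S : Set (Pl K)) : Set (Pl L) := {w | ∃ v ∈ S, Above v w}

/-- Norms of `S`-units of `L`. -/
def nrmS (S : Set (Pl K)) : Subgroup Kˣ :=
  (sunit L (up K L S)).map (Units.map (Algebra.norm K : L →* K))

/-- `S` is big enough for `L/K` and `p`. -/
structure Big (p : ℕ) (S : Finset (Pl K)) : Prop where
  p_mem : ∀ v : Pl K, (p : 𝓞 K) ∈ v.asIdeal → v ∈ S
  unram : ∀ v : Pl K, v ∉ S → Unram K L v
  prinK : ∀ v : Pl K, v ∉ S → ∃ ϖ : Kˣ, v.valuation K (ϖ : K) = exp (-1 : ℤ) ∧
    ∀ v' : Pl K, v' ∉ S → v' ≠ v → v'.valuation K (ϖ : K) = 1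
  prinL : ∀ w : Pl L, w ∉ up K L (S : Set (Pl K)) → ∃ ϖ : Lˣ, w.valuation L (ϖ : L) = exp (-1 : ℤ) ∧
    ∀ w' : Pl L, w' ∉ up K L (S : Set (Pl K)) → w' ≠ w → w'.valuation L (ϖ : L) = 1

open Classical in
/-- Number of places of `S` that do not split in `L`. -/
def nsCount (S : Finset (Pl K)) : ℕ := (S.filter fun v => ¬ Split K L v).card

/-- Elements that are local norms at all places of `S`. -/
def locNormS (S : Finset (Pl K)) : Subgroup Kˣ := ⨅ v ∈ S, locNorm K L v

/-- Elements that are local `p`-th powers at all places of `S`. -/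
def locPowS (p : ℕ) (S : Finset (Pl K)) : Subgroup Kˣ := ⨅ v ∈ S, locPow K p v

variable {K L}

theorem mem_nrm {x : Kˣ} : x ∈ nrm K L ↔ ∃ y : Lˣ, Algebra.norm K (y : L) = (x : K) := by
  constructor
  · rintro ⟨y, rfl⟩; exact ⟨y, rfl⟩
  · rintro ⟨y, hy⟩; exact ⟨y, Units.ext hy⟩

theorem mem_locNorm {v : Pl K} {x : Kˣ} :
    x ∈ locNorm K L v ↔
      ∀ n : ℕ, ∃ y : Lˣ, x / Units.map (Algebra.norm K : L →* K) y ∈ pu v n := by
  simp only [locNorm, Subgroup.mem_iInf, Subgroup.mem_sup]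
  refine forall_congr' fun n => ⟨?_, ?_⟩
  · rintro ⟨a, ⟨y, rfl⟩, b, hb, rfl⟩
    exact ⟨y, by simpa using hb⟩
  · rintro ⟨y, hy⟩
    exact ⟨_, ⟨y, rfl⟩, _, hy, by simp⟩

theorem nrm_le_locNorm (v : Pl K) : nrm K L ≤ locNorm K L v :=
  le_iInf fun _ => le_sup_left

theorem nrmS_le_nrm (S : Set (Pl K)) : nrmS K L S ≤ nrm K L := by
  rintro _ ⟨y, -, rfl⟩; exact ⟨y, rfl⟩

theorem mem_locNormS {S : Finset (Pl K)} {x : Kˣ} :
    x ∈ locNormS K L S ↔ ∀ v ∈ S, x ∈ locNorm K L v := by
  simp [locNormS, Subgroup.mem_iInf]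

theorem mem_locPowS {p : ℕ} {S : Finset (Pl K)} {x : Kˣ} :
    x ∈ locPowS K p S ↔ ∀ v ∈ S, x ∈ locPow K p v := by
  simp [locPowS, Subgroup.mem_iInf]

end Ext

end Fermat.Agent.S55.NIT

end
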