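/-
S55 / NIT, node NIT-T2: `C_T → C_S` (extension by `1`) is injective for `T ⊆ S`, hence the index
of the image of `Γ_T` divides the index of the image of `Γ_S`.
-/
import Fermat.Agent.S55.NIT.SI.Defs

set_option autoImplicit false

namespace Fermat.Agent.S55.NIT

open IsDedekindDomain NumberField

section AllT

variable {K : Type*} [Field K] [NumberField K]

open Classical in
/-- Extension by `1`. -/
noncomputable def AllT.ext (H : SI.Pl K → Subgroup Kˣ) (T S : Finset (SI.Pl K)) :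
    SI.Tgt K H T →* SI.Tgt K H S where
  toFun t := fun v => if h : v.1 ∈ T then t ⟨v.1, h⟩ else 1
  map_one' := by
    funext v
    by_cases h : v.1 ∈ T
    · simp [h]
    · simp [h]
  map_mul' a b := by
    funext v
    by_cases h : v.1 ∈ T
    · simp [h]
    · simp only [Pi.mul_apply, dif_neg h]
      exact (one_mul (1 : Kˣ ⧸ H v.1)).symm

theorem AllT.ext_apply_of_mem (H : SI.Pl K → Subgroup Kˣ) (T S : Finset (SI.Pl K))
    (t : SI.Tgt K H T) (v : S) (h : v.1 ∈ T) : AllT.ext H T S t v = t ⟨v.1, h⟩ := by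
  simp [AllT.ext, h]

theorem AllT.ext_apply_of_notMem (H : SI.Pl K → Subgroup Kˣ) (T S : Finset (SI.Pl K))
    (t : SI.Tgt K H T) (v : S) (h : v.1 ∉ T) : AllT.ext H T S t v = 1 := by
  simp [AllT.ext, h]

theorem AllT.comap_ext (H : SI.Pl K → Subgroup Kˣ) {T S : Finset (SI.Pl K)} (hTS : T ⊆ S) :
    (SI.img K H S (⨅ v : {v : SI.Pl K // v ∉ S}, H v)).comap (AllT.ext H T S) =
      SI.img K H T (⨅ v : {v : SI.Pl K // v ∉ T}, H v) := by
  ext t
  rw [Subgroup.mem_comap]
  constructor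
  · rintro ⟨x, hx, hxt⟩
    have hx' : ∀ v : SI.Pl K, v ∉ S → x ∈ H v := fun v hv =>
      (Subgroup.mem_iInf.1 hx) ⟨v, hv⟩
    refine ⟨x, ?_, ?_⟩
    · refine Subgroup.mem_iInf.2 ?_
      rintro ⟨v, hv⟩
      by_cases hvS : v ∈ S
      · have h1 := congrFun hxt ⟨v, hvS⟩
        rw [AllT.ext_apply_of_notMem H T S t ⟨v, hvS⟩ hv, SI.diag_apply] at h1
        exact (QuotientGroup.eq_one_iff x).1 h1
      · exact hx' v hvS
    · funext v
      have h1 := congrFun hxt ⟨v.1, hTS v.2⟩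
      rw [AllT.ext_apply_of_mem H T S t ⟨v.1, hTS v.2⟩ v.2] at h1
      exact h1
  · rintro ⟨x, hx, rfl⟩
    have hx' : ∀ v : SI.Pl K, v ∉ T → x ∈ H v := fun v hv =>
      (Subgroup.mem_iInf.1 hx) ⟨v, hv⟩
    refine ⟨x, ?_, ?_⟩
    · refine Subgroup.mem_iInf.2 ?_
      rintro ⟨v, hv⟩
      exact hx' v fun h => hv (hTS h)
    · funext v
      by_cases hvT : v.1 ∈ T
      · rw [AllT.ext_apply_of_mem H T S _ v hvT]
        rfl
      · rw [AllT.ext_apply_of_notMem H T S _ v hvT, SI.diag_apply]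
        exact (QuotientGroup.eq_one_iff x).2 (hx' v.1 hvT)

/-- NIT-T2 (file AllT.lean). `C_T → C_S` (extension by `1`) is injective for `T ⊆ S`. -/
theorem index_img_dvd_of_subset (H : SI.Pl K → Subgroup Kˣ) {T S : Finset (SI.Pl K)} (hTS : T ⊆ S) :
    (SI.img K H T (⨅ v : {v : SI.Pl K // v ∉ T}, H v)).index ∣
      (SI.img K H S (⨅ v : {v : SI.Pl K // v ∉ S}, H v)).index := by
  rw [← AllT.comap_ext H hTS, Subgroup.index_comap]
  have : (SI.img K H S (⨅ v : {v : SI.Pl K // v ∉ S}, H v)).Normal :=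
    ⟨fun n hn g => by
      have h : g * n * g⁻¹ = n := by
        funext v
        show g v * n v * (g v)⁻¹ = n v
        rw [mul_comm (g v), mul_inv_cancel_right]
      rw [h]
      exact hn⟩
  exact Subgroup.relIndex_dvd_index_of_normal _ _

end AllT

end Fermat.Agent.S55.NIT
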