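/-
S55 / NIT, node NIT-T1 (task 1031, helper211): the tower inequality, abstract form.
Mathlib only.
-/
import Mathlib

set_option autoImplicit false

namespace Fermat.Agent.S55.NIT

/-- NIT-T1 (file Tower.lean). The tower inequality `|C(F''/F)| ≤ |C(F'/F)| · |C(F''/F')|`,
abstract form (indices, `0` = infinite, hence the divisibility-free statement with `≠ 0`). -/
theorem index_tower {Q21 Q20 Q10 : Type*} [CommGroup Q21] [CommGroup Q20] [CommGroup Q10]
    (ν : Q21 →* Q20) (π : Q20 →* Q10) (hπ : Function.Surjective π)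
    (hex : ∀ x : Q20, π x = 1 → ∃ y : Q21, ν y = x)
    (Γ21 : Subgroup Q21) (Γ20 : Subgroup Q20) (hν : Γ21.map ν ≤ Γ20)
    (h10 : (Γ20.map π).index ≠ 0) (h21 : Γ21.index ≠ 0) :
    Γ20.index ≠ 0 ∧ Γ20.index ≤ (Γ20.map π).index * Γ21.index := by
  -- the intermediate group
  have hH : ((Γ20.map π).comap π).index = (Γ20.map π).index :=
    Subgroup.index_comap_of_surjective _ hπ
  have hle : Γ20 ≤ (Γ20.map π).comap π := Subgroup.le_comap_map π Γ20
  have hmul : Γ20.relIndex ((Γ20.map π).comap π) * ((Γ20.map π).comap π).index = Γ20.index :=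
    Subgroup.relIndex_mul_index hle
  have hsup : (Γ20.map π).comap π = Γ20 ⊔ π.ker := Subgroup.comap_map_eq π Γ20
  have hrel : Γ20.relIndex ((Γ20.map π).comap π) = Γ20.relIndex π.ker := by
    rw [hsup, sup_comm]
    exact Subgroup.relIndex_sup_right π.ker Γ20
  have hker : π.ker ≤ ν.range := by
    intro x hx
    exact hex x hx
  have hcomap : (Γ20.comap ν).index = Γ20.relIndex ν.range := Subgroup.index_comap Γ20 ν
  have hle21 : Γ21 ≤ Γ20.comap ν := Subgroup.map_le_iff_le_comap.mp hν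
  have hdvd : (Γ20.comap ν).index ∣ Γ21.index := Subgroup.index_dvd_of_le hle21
  have hc0 : (Γ20.comap ν).index ≠ 0 := fun h => h21 (by rw [h] at hdvd; exact Nat.eq_zero_of_zero_dvd hdvd)
  have hcle : (Γ20.comap ν).index ≤ Γ21.index := Nat.le_of_dvd (Nat.pos_of_ne_zero h21) hdvd
  have hr0 : Γ20.relIndex ν.range ≠ 0 := hcomap ▸ hc0
  have hrle : Γ20.relIndex π.ker ≤ Γ20.relIndex ν.range :=
    Subgroup.relIndex_le_of_le_right hker hr0
  have hrk0 : Γ20.relIndex π.ker ≠ 0 :=
    fun h => hr0 (Subgroup.relIndex_eq_zero_of_le_right hker h)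
  constructor
  · rw [← hmul, hrel, hH]
    exact mul_ne_zero hrk0 h10
  · rw [← hmul, hrel, hH, mul_comm]
    exact Nat.mul_le_mul_left _ (hrle.trans (hcomap ▸ hcle))

end Fermat.Agent.S55.NIT
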